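/-
Multiplicative 2-cocycles of a group acting on a commutative group: restriction, averaging,
inflation/restriction in degree two, all at the level of explicit cochains.
-/
import Mathlib.RepresentationTheory.Homological.GroupCohomology.LowDegree
import Mathlib.GroupTheory.Index
import Mathlib.GroupTheory.QuotientGroup.Basic
import Mathlib.Tactic.Abel
import Mathlib.Tactic.LinearCombination

set_option autoImplicit false

namespace Fermat.Agent.CFT.Class

open groupCohomology

variable (G A : Type*) [Group G] [CommGroup A] [MulDistribMulAction G A]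

/-- Coboundary of a multiplicative 1-cochain. -/
def delta1 : (G → A) →* (G × G → A) where
  toFun x := fun p => p.1 • x p.2 / x (p.1 * p.2) * x p.1
  map_one' := by ext p; simp
  map_mul' x y := by
    ext p
    simp only [Pi.mul_apply, smul_mul', mul_div_mul_comm]
    exact mul_mul_mul_comm _ _ _ _

/-- Multiplicative 2-cocycles. -/
def Z2 : Subgroup (G × G → A) where
  carrier := {f | IsMulCocycle₂ f}
  one_mem' := fun g h j => by simp
  mul_mem' {a b} ha hb := fun g h j => by
    simp only [Pi.mul_apply, smul_mul']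
    rw [mul_mul_mul_comm, ha g h j, hb g h j, mul_mul_mul_comm]
  inv_mem' {a} ha := fun g h j => by
    simp only [Pi.inv_apply, smul_inv']
    rw [← mul_inv, ← mul_inv, ha g h j]

variable {G A}

@[simp] lemma delta1_apply (x : G → A) (g h : G) :
    delta1 G A x (g, h) = g • x h / x (g * h) * x g := rfl

lemma mem_Z2 {f : G × G → A} : f ∈ Z2 G A ↔ IsMulCocycle₂ f := Iff.rfl

lemma delta1_mem_Z2 (x : G → A) : delta1 G A x ∈ Z2 G A := by
  intro g h j
  simp only [delta1_apply, smul_mul', smul_div', mul_smul, mul_assoc g h j]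
  apply Additive.ofMul.injective
  simp only [ofMul_mul, ofMul_div]
  abel

variable (G A)

/-- 2-coboundaries, inside the cocycles. -/
def B2 : Subgroup (Z2 G A) := (delta1 G A).range.comap (Z2 G A).subtype

/-- Second cohomology of a group acting on a commutative group. -/
abbrev H2M := Z2 G A ⧸ B2 G A

/-- Vanishing of the first cohomology. -/
def H1Triv : Prop := ∀ b : G → A, IsMulCocycle₁ b → IsMulCoboundary₁ b

/-- `m` kills the first cohomology. -/
def H1Kill (m : ℕ) : Prop := ∀ b : G → A, IsMulCocycle₁ b → IsMulCoboundary₁ (b ^ m)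

variable {G A}

lemma H1Triv.kill (h : H1Triv G A) : H1Kill G A 1 := fun b hb => by rw [pow_one]; exact h b hb

/-- The class of a cocycle. -/
abbrev cls (f : Z2 G A) : H2M G A := QuotientGroup.mk f

lemma cls_eq_one_iff (f : Z2 G A) : cls f = 1 ↔ ∃ x, delta1 G A x = f := by
  rw [QuotientGroup.eq_one_iff]
  rfl

lemma cls_eq_cls_iff (f f' : Z2 G A) :
    cls f = cls f' ↔ ∃ x, (f : G × G → A) = f' * delta1 G A x := by
  rw [QuotientGroup.eq]
  refine ⟨fun ⟨x, hx⟩ => ⟨x⁻¹, ?_⟩, fun ⟨x, hx⟩ => ⟨x⁻¹, ?_⟩⟩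
  · rw [map_inv, hx]; simp
  · simp [map_inv, hx]

section Functorial

variable {H B : Type*} [Group H] [CommGroup B] [MulDistribMulAction H B]

/-- Pullback of cocycles along a compatible pair of maps. -/
def mapZ2 (φ : H →* G) (ψ : A →* B) (hc : ∀ (h : H) (a : A), ψ (φ h • a) = h • ψ a) :
    Z2 G A →* Z2 H B where
  toFun f := ⟨fun p => ψ ((f : G × G → A) (φ p.1, φ p.2)), fun g h j => by
    have := congrArg ψ (f.2 (φ g) (φ h) (φ j))
    rw [map_mul ψ, map_mul ψ, hc] at this
    simpa only [map_mul φ] using this⟩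
  map_one' := by ext; simp
  map_mul' a b := by ext; simp

@[simp] lemma mapZ2_apply (φ : H →* G) (ψ : A →* B)
    (hc : ∀ (h : H) (a : A), ψ (φ h • a) = h • ψ a) (f : Z2 G A) (g h : H) :
    (mapZ2 φ ψ hc f : H × H → B) (g, h) = ψ ((f : G × G → A) (φ g, φ h)) := rfl

/-- Functoriality of the second cohomology. -/
def mapH2 (φ : H →* G) (ψ : A →* B) (hc : ∀ (h : H) (a : A), ψ (φ h • a) = h • ψ a) :
    H2M G A →* H2M H B :=
  QuotientGroup.map _ _ (mapZ2 φ ψ hc) fun f ⟨x, hx⟩ => ⟨fun h => ψ (x (φ h)), by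
    funext p
    obtain ⟨g, h⟩ := p
    have hx' : (f : G × G → A) (φ g, φ h) = φ g • x (φ h) / x (φ g * φ h) * x (φ g) :=
      (congrFun hx (φ g, φ h)).symm
    simp only [delta1_apply, Subgroup.coe_subtype, mapZ2_apply, hx', map_mul, map_div, hc]⟩

@[simp] lemma mapH2_cls (φ : H →* G) (ψ : A →* B)
    (hc : ∀ (h : H) (a : A), ψ (φ h • a) = h • ψ a) (f : Z2 G A) :
    mapH2 φ ψ hc (cls f) = cls (mapZ2 φ ψ hc f) := rfl

end Functorial

/-- Restriction to a subgroup. -/
def resH2 (U : Subgroup G) : H2M G A →* H2M U A :=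
  mapH2 U.subtype (MonoidHom.id A) (fun _ _ => rfl)

section Subgroup

variable (U : Subgroup G)

/-- A chosen representative of the left coset. -/
noncomputable def rep (g : G) : G := (QuotientGroup.mk (s := U) g).out

lemma rep_inv_mul_mem (g : G) : (rep U g)⁻¹ * g ∈ U :=
  QuotientGroup.eq.1 (QuotientGroup.out_eq' _)

lemma rep_mul_of_mem (g : G) {u : G} (hu : u ∈ U) : rep U (g * u) = rep U g := by
  unfold rep
  rw [QuotientGroup.mk_mul_of_mem g hu]

/-- A cocycle whose restriction to `U` is a coboundary is cohomologous to one which is trivial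
when its second argument lies in `U`. -/
lemma exists_trivial_right {c : Z2 G A} (hc : resH2 U (cls c) = 1) :
    ∃ d : Z2 G A, cls d = cls c ∧ ∀ (g : G), ∀ u ∈ U, (d : G × G → A) (g, u) = 1 := by
  obtain ⟨β, hβ⟩ := (cls_eq_one_iff _).1 (show cls _ = 1 from hc)
  have hβ' : ∀ x y : U, (x : G) • β y / β (x * y) * β x = (c : G × G → A) (x, y) :=
    fun x y => congrFun hβ (x, y)
  let υ : G → U := fun g => ⟨(rep U g)⁻¹ * g, rep_inv_mul_mem U g⟩
  let e : G → A := fun g => rep U g • β (υ g) / (c : G × G → A) (rep U g, υ g)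
  classical
  let b : G → A := fun g => if h : g ∈ U then β ⟨g, h⟩ else e g
  have key : ∀ g, ∀ u : U, g • β u / b (g * u) * b g = (c : G × G → A) (g, u) := by
    intro g u
    by_cases hgU : g ∈ U
    · simp only [b, dif_pos hgU, dif_pos (U.mul_mem hgU u.2)]
      exact hβ' ⟨g, hgU⟩ u
    · have hg : g = rep U g * υ g := by simp [υ]
      have hυ : υ (g * u) = υ g * u := by
        ext
        simp [υ, rep_mul_of_mem U g u.2, mul_assoc]
      have h2 := c.2 (rep U g) (υ g) u
      rw [← hg] at h2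
      have hgs : g • β u = rep U g • (υ g : G) • β u := by rw [smul_smul, ← hg]
      have hgu : g * (u : G) ∉ U := fun h => hgU ((Subgroup.mul_mem_cancel_right U u.2).1 h)
      simp only [b, dif_neg hgU, dif_neg hgu, e, rep_mul_of_mem U g u.2, hυ, Subgroup.coe_mul]
      rw [← hβ', smul_mul', smul_div'] at h2
      rw [hgs]
      apply Additive.ofMul.injective
      have h3 := congrArg Additive.ofMul h2
      simp only [ofMul_mul, ofMul_div] at h3 ⊢
      linear_combination (norm := abel) -h3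
  refine ⟨c / ⟨delta1 G A b, delta1_mem_Z2 b⟩, ?_, fun g u hu => ?_⟩
  · exact (cls_eq_cls_iff _ _).2 ⟨b⁻¹, by simp [div_eq_mul_inv]⟩
  · change (c : G × G → A) (g, u) / delta1 G A b (g, u) = 1
    rw [delta1_apply, show b u = β ⟨u, hu⟩ by simp only [b, dif_pos hu], key g ⟨u, hu⟩,
      div_self']

/-- If a class restricts trivially to a subgroup of finite index, the index kills it. -/
lemma pow_index_eq_one [U.FiniteIndex] (x : H2M G A) (hx : resH2 U x = 1) :
    x ^ U.index = 1 := by
  induction x using QuotientGroup.induction_on with | H c => ?_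
  obtain ⟨d, hd, hdU⟩ := exists_trivial_right U hx
  rw [show (QuotientGroup.mk c : H2M G A) = cls c from rfl, ← hd, ← QuotientGroup.mk_pow]
  have hconst : ∀ g h, ∀ u ∈ U, (d : G × G → A) (g, h * u) = (d : G × G → A) (g, h) := by
    intro g h u hu
    have := d.2 g h u
    rw [hdU _ _ hu, hdU _ _ hu, smul_one, one_mul, one_mul] at this
    exact this.symm
  let _i : Fintype (G ⧸ U) := Fintype.ofFinite _
  let D : G → G ⧸ U → A := fun g => Quotient.lift (fun h => (d : G × G → A) (g, h))
    (fun a b hab => by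
      have hab' : a⁻¹ * b ∈ U := QuotientGroup.leftRel_apply.1 hab
      simpa using (hconst g a _ hab').symm)
  refine (cls_eq_one_iff _).2 ⟨fun g => ∏ q, D g q, ?_⟩
  ext ⟨g, g'⟩
  have hid : ∀ q : G ⧸ U,
      D (g * g') q * (d : G × G → A) (g, g') = g • D g' q * D g (g' • q) := by
    intro q
    induction q using QuotientGroup.induction_on with | H j => ?_
    exact d.2 g g' j
  have := Finset.prod_congr (s₁ := (Finset.univ : Finset (G ⧸ U))) rfl (fun q _ => hid q)
  rw [Finset.prod_mul_distrib, Finset.prod_mul_distrib, Finset.prod_const,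
    ← Finset.smul_prod', Fintype.prod_equiv (MulAction.toPerm g') (fun q => D g (g' • q))
      (fun q => D g q) (fun q => rfl), Finset.card_univ, ← Nat.card_eq_fintype_card,
    ← Subgroup.index] at this
  simp only [delta1_apply, SubgroupClass.coe_pow, Pi.pow_apply]
  rw [div_mul_eq_mul_div, ← this, mul_div_cancel_left]

end Subgroup

/-! ### Inflation -/

section Inflation

variable (K : Subgroup G)

/-- A 2-cochain inflated from `G ⧸ K` with values in the `K`-invariants. -/
structure IsInflated (f : G × G → A) : Prop where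
  left : ∀ g h, ∀ k ∈ K, f (g * k, h) = f (g, h)
  right : ∀ g h, ∀ k ∈ K, f (g, h * k) = f (g, h)
  fixed : ∀ g h, ∀ k ∈ K, k • f (g, h) = f (g, h)

/-- A 1-cochain inflated from `G ⧸ K` with values in the `K`-invariants. -/
structure IsInflated1 (b : G → A) : Prop where
  right : ∀ g, ∀ k ∈ K, b (g * k) = b g
  fixed : ∀ g, ∀ k ∈ K, k • b g = b g

variable {K}
variable [hKn : K.Normal]

lemma exists_mul_eq_mul (g : G) {k : G} (hk : k ∈ K) : ∃ k' ∈ K, k * g = g * k' :=
  ⟨g⁻¹ * k * g, by simpa using hKn.conj_mem k hk g⁻¹, by group⟩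

/-- Exactness of inflation-restriction in degree two. -/
lemma exists_inflated {m : ℕ} (h1 : H1Kill K A m) (x : H2M G A) (hx : resH2 K x = 1) :
    ∃ d : Z2 G A, cls d = x ^ m ∧ IsInflated K (d : G × G → A) ∧
      (∀ g, ∀ k ∈ K, (d : G × G → A) (g, k) = 1) ∧
      (∀ g, ∀ k ∈ K, (d : G × G → A) (k, g) = 1) := by
  induction x using QuotientGroup.induction_on with | H c => ?_
  obtain ⟨c', hcc, hcK⟩ := exists_trivial_right K hx
  rw [show (QuotientGroup.mk c : H2M G A) = cls c from rfl, ← hcc] at *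
  clear hcc hx c
  rename' c' => c₀
  have hco₀ : ∀ h, IsMulCocycle₁ (fun k : K => (c₀ : G × G → A) (k, h)) := fun h k k' => by
    obtain ⟨k'', hk'', he⟩ := exists_mul_eq_mul h k'.2
    have := c₀.2 k k' h
    rw [hcK _ _ k'.2, mul_one, he] at this
    have h4 := c₀.2 k h k''
    rw [hcK _ _ hk'', hcK _ _ hk'', smul_one, one_mul, one_mul] at h4
    rwa [← h4] at this
  rw [← QuotientGroup.mk_pow]
  let c : Z2 G A := c₀ ^ m
  have hcm : c = c₀ ^ m := rfl
  rw [← hcm]
  replace hcK : ∀ g, ∀ u ∈ K, (c : G × G → A) (g, u) = 1 := fun g u hu => by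
    simp [c, hcK g u hu]
  have hright : ∀ g h, ∀ k ∈ K, (c : G × G → A) (g, h * k) = (c : G × G → A) (g, h) := by
    intro g h k hk
    have := c.2 g h k
    rw [hcK _ _ hk, hcK _ _ hk, smul_one, one_mul, one_mul] at this
    exact this.symm
  have hleft : ∀ g h, ∀ k ∈ K,
      (c : G × G → A) (g * k, h) = g • (c : G × G → A) (k, h) * (c : G × G → A) (g, h) := by
    intro g h k hk
    obtain ⟨k', hk', he⟩ := exists_mul_eq_mul h hk
    have := c.2 g k h
    rwa [hcK _ _ hk, mul_one, he, hright _ _ _ hk'] at this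
  have hex : ∀ q : G ⧸ K, ∃ a : A, (q = QuotientGroup.mk 1 → a = 1) ∧
      ∀ k : K, (k : G) • a / a = (c : G × G → A) (k, q.out) := by
    intro q
    by_cases hq : q = QuotientGroup.mk 1
    · refine ⟨1, fun _ => rfl, fun k => ?_⟩
      have : q.out ∈ K := (QuotientGroup.eq_one_iff _).1 (by rw [QuotientGroup.out_eq', hq]; rfl)
      rw [smul_one, div_self', hcK _ _ this]
    · obtain ⟨a, ha⟩ := h1 _ (hco₀ q.out)
      exact ⟨a, fun h => absurd h hq, fun k => (ha k).trans (by simp [c])⟩
  choose aq haq1 haq using hex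
  let b : G → A := fun g => aq (QuotientGroup.mk g)
  have hb1 : ∀ k ∈ K, b k = 1 := fun k hk =>
    haq1 _ (((QuotientGroup.eq_one_iff k).2 hk).trans rfl)
  have hbr : ∀ g, ∀ k ∈ K, b (g * k) = b g := fun g k hk => by
    simp only [b, QuotientGroup.mk_mul_of_mem g hk]
  have hb : ∀ h, ∀ k ∈ K, k • b h / b h = (c : G × G → A) (k, h) := by
    intro h k hk
    rw [haq (QuotientGroup.mk h) ⟨k, hk⟩]
    have h' : (rep K h)⁻¹ * h ∈ K := rep_inv_mul_mem K h
    have := hright k (rep K h) _ h'
    rw [mul_inv_cancel_left] at this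
    exact this.symm
  let d : Z2 G A := c / ⟨delta1 G A b, delta1_mem_Z2 b⟩
  have hdval : ∀ g h, (d : G × G → A) (g, h) = (c : G × G → A) (g, h) / delta1 G A b (g, h) :=
    fun _ _ => rfl
  have hd1 : ∀ g, ∀ k ∈ K, (d : G × G → A) (g, k) = 1 := by
    intro g k hk
    rw [hdval, hcK _ _ hk, delta1_apply, hb1 _ hk, hbr _ _ hk, smul_one, one_div,
      div_mul_cancel, inv_one]
  have hd2 : ∀ g, ∀ k ∈ K, (d : G × G → A) (k, g) = 1 := by
    intro g k hk
    obtain ⟨k', hk', he⟩ := exists_mul_eq_mul g hk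
    rw [hdval, delta1_apply, hb1 _ hk, he, hbr _ _ hk', mul_one, hb _ _ hk, div_self']
  refine ⟨d, (cls_eq_cls_iff _ _).2 ⟨b⁻¹, by simp [d, div_eq_mul_inv]⟩,
    ⟨fun g h k hk => ?_, fun g h k hk => ?_, fun g h k hk => ?_⟩, hd1, hd2⟩
  · obtain ⟨k', hk', he⟩ := exists_mul_eq_mul h hk
    have h3 := d.2 g k h
    rw [hd1 _ _ hk, hd2 _ _ hk, smul_one, mul_one, one_mul, he] at h3
    have h4 := d.2 g h k'
    rw [hd1 _ _ hk', hd1 _ _ hk', smul_one, one_mul, one_mul] at h4
    rw [h3, h4]
  · have := d.2 g h k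
    rw [hd1 _ _ hk, hd1 _ _ hk, smul_one, one_mul, one_mul] at this
    exact this.symm
  · obtain ⟨k', hk', he⟩ := exists_mul_eq_mul g hk
    have h3 := d.2 k g h
    rw [hd2 _ _ hk, hd2 _ _ hk, mul_one, mul_one, he] at h3
    have h4 := d.2 g k' h
    obtain ⟨k'', hk'', he'⟩ := exists_mul_eq_mul h hk'
    rw [hd1 _ _ hk', hd2 _ _ hk', smul_one, mul_one, one_mul, he'] at h4
    have h5 := d.2 g h k''
    rw [hd1 _ _ hk'', hd1 _ _ hk'', smul_one, one_mul, one_mul] at h5
    rw [← h3, h4, h5]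

omit hKn in
/-- Injectivity of inflation in degree two. -/
lemma exists_inflated1 {m : ℕ} (h1 : H1Kill K A m) {d : G × G → A}
    (hd1 : ∀ g, ∀ k ∈ K, d (g, k) = 1) (hd2 : ∀ g, ∀ k ∈ K, d (k, g) = 1)
    [K.Normal] {b : G → A} (hb : delta1 G A b = d) :
    ∃ b' : G → A, delta1 G A b' = d ^ m ∧ IsInflated1 K b' := by
  have hco : IsMulCocycle₁ (fun k : K => b k) := fun k k' => by
    have := congrFun hb ((k : G), (k' : G))
    rw [hd1 _ _ k'.2, delta1_apply, div_mul_eq_mul_div, div_eq_one] at this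
    exact this.symm
  obtain ⟨a, ha⟩ := h1 _ hco
  let b' : G → A := fun g => b g ^ m / (g • a / a)
  have hδ : delta1 G A b' = d ^ m := by
    rw [← hb, ← map_pow]
    ext ⟨g, h⟩
    simp only [delta1_apply, Pi.pow_apply, b', mul_smul, div_eq_mul_inv]
    simp only [smul_mul', smul_inv']
    apply Additive.ofMul.injective
    simp only [ofMul_mul, ofMul_inv]
    abel
  have hk1 : ∀ k ∈ K, b' k = 1 := fun k hk => by
    simp only [b', div_eq_one]
    exact (ha ⟨k, hk⟩).symm
  have hr : ∀ g, ∀ k ∈ K, b' (g * k) = b' g := fun g k hk => by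
    have := congrFun hδ (g, k)
    rw [Pi.pow_apply, hd1 _ _ hk, one_pow, delta1_apply, hk1 k hk, smul_one, one_div,
      inv_mul_eq_one] at this
    exact this
  refine ⟨b', hδ, hr, fun g k hk => ?_⟩
  obtain ⟨k', hk', he⟩ := exists_mul_eq_mul g hk
  have := congrFun hδ (k, g)
  rw [Pi.pow_apply, hd2 _ _ hk, one_pow, delta1_apply, hk1 k hk, mul_one, he, hr _ _ hk',
    div_eq_one] at this
  exact this

end Inflation

end Fermat.Agent.CFT.Class
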