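/-
The 2-cocycle attached to an invariant element and a character into `ZMod n`.
-/
import Fermat.Agent.CFT.Class.H2Cocycle
import Mathlib.Data.ZMod.Basic
import Mathlib.Algebra.BigOperators.Intervals

set_option autoImplicit false

namespace Fermat.Agent.CFT.Class

open groupCohomology

variable {G A : Type*} [Group G] [CommGroup A] [MulDistribMulAction G A]
variable {n : ℕ}

/-- The representative in `[0, n)` of a character value. -/
def cval (χ : G →* Multiplicative (ZMod n)) (g : G) : ℕ := (χ g).toAdd.val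

/-- The carry cocycle with values in `ℕ`. -/
def carry (χ : G →* Multiplicative (ZMod n)) (g h : G) : ℕ := (cval χ g + cval χ h) / n

variable [NeZero n] (χ : G →* Multiplicative (ZMod n))

lemma cval_lt (g : G) : cval χ g < n := ZMod.val_lt _

lemma cval_mul (g h : G) : cval χ (g * h) = (cval χ g + cval χ h) % n := by
  simp [cval, ZMod.val_add]

omit [NeZero n] in
lemma cval_eq_zero_iff (g : G) : cval χ g = 0 ↔ g ∈ χ.ker := by
  rw [cval, ZMod.val_eq_zero, MonoidHom.mem_ker]
  exact Iff.rfl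

@[simp] lemma cval_one : cval χ 1 = 0 := (cval_eq_zero_iff χ 1).2 χ.ker.one_mem

omit [NeZero n] in
lemma cval_pow {σ : G} (hσ : χ σ = Multiplicative.ofAdd 1) (i : ℕ) : cval χ (σ ^ i) = i % n := by
  rw [cval, map_pow, hσ, toAdd_pow, toAdd_ofAdd, nsmul_one, ZMod.val_natCast]

lemma cval_pow_lt {σ : G} (hσ : χ σ = Multiplicative.ofAdd 1) {i : ℕ} (hi : i < n) :
    cval χ (σ ^ i) = i := by
  rw [cval_pow χ hσ, Nat.mod_eq_of_lt hi]

lemma carry_assoc (g h j : G) :
    carry χ (g * h) j + carry χ g h = carry χ h j + carry χ g (h * j) := by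
  have hn : 0 < n := NeZero.pos n
  simp only [carry, cval_mul]
  have key : ∀ a b : ℕ, (a % n + b) / n + a / n = (a + b) / n := fun a b => by
    conv_rhs => rw [← Nat.div_add_mod a n, add_assoc, Nat.mul_add_div hn]
    exact add_comm _ _
  rw [key]
  conv_rhs => rw [add_comm, add_comm (cval χ g) _, key]
  congr 1
  ring

lemma carry_mem_ker_right (g : G) {k : G} (hk : k ∈ χ.ker) : carry χ g k = 0 := by
  simp [carry, (cval_eq_zero_iff χ k).2 hk, Nat.div_eq_of_lt (cval_lt χ g)]

lemma carry_mem_ker_left (g : G) {k : G} (hk : k ∈ χ.ker) : carry χ k g = 0 := by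
  simp [carry, (cval_eq_zero_iff χ k).2 hk, Nat.div_eq_of_lt (cval_lt χ g)]

/-- The invariant elements of a module. -/
def fixedSubgroup (G A : Type*) [Group G] [CommGroup A] [MulDistribMulAction G A] : Subgroup A where
  carrier := {a | ∀ g : G, g • a = a}
  one_mem' g := smul_one g
  mul_mem' {a b} ha hb g := by rw [smul_mul', ha g, hb g]
  inv_mem' {a} ha g := by rw [smul_inv', ha g]

lemma mem_fixedSubgroup {a : A} : a ∈ fixedSubgroup G A ↔ ∀ g : G, g • a = a := Iff.rfl

/-- The cocycle `(g, h) ↦ a ^ carry`. -/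
def carryZ2 : fixedSubgroup G A →* Z2 G A where
  toFun a := ⟨fun p => (a : A) ^ carry χ p.1 p.2, fun g h j => by
    rw [smul_pow', a.2 g, ← pow_add, ← pow_add, carry_assoc]⟩
  map_one' := by ext; simp
  map_mul' a b := by ext; simp [mul_pow]

@[simp] lemma carryZ2_apply (a : fixedSubgroup G A) (g h : G) :
    (carryZ2 χ a : G × G → A) (g, h) = (a : A) ^ carry χ g h := rfl

/-- The class `a ∪ δχ`. -/
def carryH2 : fixedSubgroup G A →* H2M G A := (QuotientGroup.mk' _).comp (carryZ2 χ)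

lemma carryH2_eq (a : fixedSubgroup G A) : carryH2 χ a = cls (carryZ2 χ a) := rfl

section Map

variable {H B : Type*} [Group H] [CommGroup B] [MulDistribMulAction H B]

lemma mapH2_carryH2 (φ : H →* G) (ψ : A →* B) (hc : ∀ (h : H) (a : A), ψ (φ h • a) = h • ψ a)
    (a : fixedSubgroup G A) :
    mapH2 φ ψ hc (carryH2 χ a) = carryH2 (χ.comp φ)
      ⟨ψ a, fun h => by rw [← hc, a.2 (φ h)]⟩ := by
  rw [carryH2_eq, carryH2_eq, mapH2_cls]
  congr 1
  ext ⟨g, h⟩
  simp [carry, cval]

end Map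

/-- A character whose values are multiples of `d` gives the same cocycle as the divided one. -/
lemma carryH2_mul {m d : ℕ} [NeZero m] (hd : n = d * m) (χ' : G →* Multiplicative (ZMod m))
    (h : ∀ g, cval χ g = d * cval χ' g) (a : fixedSubgroup G A) :
    carryH2 χ a = carryH2 χ' a := by
  rw [carryH2_eq, carryH2_eq]
  congr 1
  ext ⟨g, g'⟩
  have hd0 : 0 < d := Nat.pos_of_ne_zero fun h0 => NeZero.ne n (by simp [hd, h0])
  simp only [carryZ2_apply, carry, h, ← Nat.mul_add]
  rw [hd, Nat.mul_div_mul_left _ _ hd0]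

/-- The product of the first `n` translates. -/
def normPow (σ : G) (n : ℕ) (y : A) : A := ∏ i ∈ Finset.range n, σ ^ i • y

section Norm

variable {χ} {σ : G} (hσ : χ σ = Multiplicative.ofAdd 1)

include hσ

lemma pow_card_mem_ker : σ ^ n ∈ χ.ker := by
  rw [← cval_eq_zero_iff, cval_pow χ hσ, Nat.mod_self]

lemma exists_eq_pow_mul (g : G) : ∃ k ∈ χ.ker, g = σ ^ cval χ g * k := by
  refine ⟨(σ ^ cval χ g)⁻¹ * g, ?_, by group⟩
  have : χ (σ ^ cval χ g) = χ g := by
    rw [map_pow, hσ, ← ofAdd_nsmul, nsmul_one]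
    simp [cval]
  rw [MonoidHom.mem_ker, map_mul, map_inv, this, inv_mul_cancel]

lemma pow_add_smul_fixed {y : A} (hy : ∀ k ∈ χ.ker, k • y = y) (q j : ℕ) :
    σ ^ (n * q + j) • y = σ ^ j • y := by
  rw [add_comm, pow_add, mul_smul, hy _ (by rw [pow_mul]; exact pow_mem (pow_card_mem_ker hσ) q)]

lemma smul_pow_smul {y : A} (hy : ∀ k ∈ χ.ker, k • y = y) (g : G) (j : ℕ) :
    g • σ ^ j • y = σ ^ (cval χ g + j) • y := by
  obtain ⟨k, hk, he⟩ := exists_eq_pow_mul hσ g
  obtain ⟨k', hk', he'⟩ := exists_mul_eq_mul (σ ^ j) hk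
  conv_lhs => rw [he]
  rw [pow_add, mul_smul, mul_smul]
  congr 1
  rw [smul_smul, he', mul_smul, hy _ hk']

lemma smul_normPow {y : A} (hy : ∀ k ∈ χ.ker, k • y = y) (g : G) :
    g • normPow σ n y = normPow σ n y := by
  simp only [normPow, Finset.smul_prod', smul_pow_smul hσ hy]
  have : ∀ c : ℕ, ∏ i ∈ Finset.range n, σ ^ (c + i) • y = ∏ i ∈ Finset.range n, σ ^ i • y := by
    intro c
    induction c with
    | zero => simp
    | succ c ih =>
      have h1 := Finset.prod_range_succ (fun i => σ ^ (c + i) • y) n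
      rw [Finset.prod_range_succ', ih,
        show σ ^ (c + n) • y = σ ^ (c + 0) • y by
          rw [add_comm c n, add_zero]; simpa using pow_add_smul_fixed hσ hy 1 c] at h1
      simpa [add_assoc, add_comm 1, add_left_comm] using mul_right_cancel h1
  exact this _

lemma prod_range_eq {y : A} (hy : ∀ k ∈ χ.ker, k • y = y) (q r : ℕ) :
    ∏ i ∈ Finset.range (n * q + r), σ ^ i • y =
      normPow σ n y ^ q * ∏ i ∈ Finset.range r, σ ^ i • y := by
  induction q with
  | zero => simp
  | succ q ih =>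
    have h : ∀ i, σ ^ (n + i) • y = σ ^ i • y := fun i => by
      simpa using pow_add_smul_fixed hσ hy 1 i
    rw [show n * (q + 1) + r = n + (n * q + r) by ring, Finset.prod_range_add]
    simp only [h]
    rw [ih, ← mul_assoc, pow_succ']
    rfl

lemma carryH2_eq_one_of_norm (a : fixedSubgroup G A) {y : A} (hy : ∀ k ∈ χ.ker, k • y = y)
    (ha : normPow σ n y = a) : carryH2 χ a = 1 := by
  refine (cls_eq_one_iff _).2 ⟨fun g => ∏ i ∈ Finset.range (cval χ g), σ ^ i • y, ?_⟩
  ext ⟨g, h⟩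
  simp only [delta1_apply, Finset.smul_prod', smul_pow_smul hσ hy, carryZ2_apply, ← ha]
  rw [div_mul_eq_mul_div, div_eq_iff_eq_mul, mul_comm, ← Finset.prod_range_add, cval_mul, carry,
    ← prod_range_eq hσ hy, Nat.div_add_mod]

lemma exists_norm_of_carryH2_eq_one {m : ℕ} (h1 : H1Kill χ.ker A m) (a : fixedSubgroup G A)
    (ha : carryH2 χ a = 1) :
    ∃ y : A, (∀ k ∈ χ.ker, k • y = y) ∧ normPow σ n y = (a : A) ^ m := by
  rcases Nat.lt_or_ge 1 n with hn | hn
  swap
  · exact ⟨(a : A) ^ m, fun k _ => by rw [smul_pow', a.2 k],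
      by simp [normPow, le_antisymm hn (NeZero.pos n)]⟩
  obtain ⟨b, hb⟩ := (cls_eq_one_iff _).1 ha
  obtain ⟨b, hb, hbr, hbf⟩ := exists_inflated1 h1
    (fun g k hk => by simp [carry_mem_ker_right χ g hk])
    (fun g k hk => by simp [carry_mem_ker_left χ g hk]) hb
  replace hb : delta1 G A b = (carryZ2 χ (a ^ m) : G × G → A) := by
    rw [hb, map_pow]; rfl
  have hb1 : b 1 = 1 := by
    have := congrFun hb (1, 1)
    simpa [carry_mem_ker_right χ 1 χ.ker.one_mem] using this
  refine ⟨b σ, hbf σ, ?_⟩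
  have hσn : b (σ ^ n) = 1 := by
    have := hbr 1 _ (pow_card_mem_ker hσ)
    rwa [one_mul, hb1] at this
  have hcar : ∀ i ∈ Finset.range n, carry χ (σ ^ i) σ = if i = n - 1 then 1 else 0 := by
    intro i hi
    have hi := Finset.mem_range.1 hi
    have h1' : cval χ σ = 1 := by simpa using cval_pow_lt χ hσ hn
    rw [carry, cval_pow_lt χ hσ hi, h1']
    split_ifs with h
    · rw [show i + 1 = n by omega, Nat.div_self (NeZero.pos n)]
    · exact Nat.div_eq_of_lt (by omega)
  have hp : (a : A) ^ m = ∏ i ∈ Finset.range n, delta1 G A b (σ ^ i, σ) := by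
    rw [hb]
    simp only [carryZ2_apply, SubgroupClass.coe_pow]
    rw [Finset.prod_pow_eq_pow_sum, Finset.sum_congr rfl hcar, Finset.sum_ite_eq',
      if_pos (Finset.mem_range.2 (by omega)), pow_one]
  rw [hp, normPow]
  simp only [delta1_apply, ← pow_succ]
  simp only [div_mul_eq_mul_div, mul_div_assoc, Finset.prod_mul_distrib, Finset.prod_range_div',
    pow_zero, hb1, hσn, div_one, mul_one]

/-- A class trivial on the kernel of a character is `a ∪ δχ`. -/
lemma exists_carryH2_eq {m : ℕ} (h1 : H1Kill χ.ker A m) (x : H2M G A)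
    (hx : resH2 χ.ker x = 1) : ∃ a, carryH2 χ a = x ^ m := by
  obtain ⟨d, hdx, hd, hd1, hd2⟩ := exists_inflated h1 x hx
  rw [← hdx]
  clear hdx hx
  let bs : ℕ → A := fun i => (∏ j ∈ Finset.range i, (d : G × G → A) (σ ^ j, σ))⁻¹
  let b : G → A := fun g => bs (cval χ g)
  have hbk : ∀ k ∈ χ.ker, b k = 1 := fun k hk => by simp [b, bs, (cval_eq_zero_iff χ k).2 hk]
  have hbr : ∀ g, ∀ k ∈ χ.ker, b (g * k) = b g := fun g k hk => by
    simp [b, cval_mul, (cval_eq_zero_iff χ k).2 hk, Nat.mod_eq_of_lt (cval_lt χ g)]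
  have hbl : ∀ g, ∀ k ∈ χ.ker, b (k * g) = b g := fun g k hk => by
    simp [b, cval_mul, (cval_eq_zero_iff χ k).2 hk, Nat.mod_eq_of_lt (cval_lt χ g)]
  have hbf : ∀ g, ∀ k ∈ χ.ker, k • b g = b g := fun g k hk => by
    simp [b, bs, Finset.smul_prod', hd.fixed _ _ k hk]
  let e : Z2 G A := d / ⟨delta1 G A b, delta1_mem_Z2 b⟩
  have heval : ∀ g h, (e : G × G → A) (g, h) = (d : G × G → A) (g, h) / delta1 G A b (g, h) :=
    fun _ _ => rfl
  have he1 : ∀ g, ∀ k ∈ χ.ker, (e : G × G → A) (g, k) = 1 := fun g k hk => by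
    simp [heval, hd1 g k hk, hbk k hk, hbr g k hk]
  have he2 : ∀ g, ∀ k ∈ χ.ker, (e : G × G → A) (k, g) = 1 := fun g k hk => by
    simp [heval, hd2 g k hk, hbk k hk, hbl g k hk, hbf g k hk]
  have heR : ∀ g h, ∀ k ∈ χ.ker, (e : G × G → A) (g, h * k) = (e : G × G → A) (g, h) := by
    intro g h k hk
    have := e.2 g h k
    rw [he1 _ _ hk, he1 _ _ hk, smul_one, one_mul, one_mul] at this
    exact this.symm
  have heL : ∀ g h, ∀ k ∈ χ.ker, (e : G × G → A) (g * k, h) = (e : G × G → A) (g, h) := by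
    intro g h k hk
    have := e.2 g k h
    obtain ⟨k', hk', he⟩ := exists_mul_eq_mul h hk
    rw [he1 _ _ hk, he2 _ _ hk, smul_one, mul_one, one_mul, he, heR _ _ _ hk'] at this
    exact this
  have heF : ∀ g h, ∀ k ∈ χ.ker, k • (e : G × G → A) (g, h) = (e : G × G → A) (g, h) := by
    intro g h k hk
    obtain ⟨k', hk', he⟩ := exists_mul_eq_mul g hk
    simp only [heval, delta1_apply, smul_div', smul_mul', hd.fixed _ _ k hk, hbf _ k hk]
    rw [smul_smul, he, mul_smul, hbf _ k' hk']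
  have hsmall : ∀ i, i + 1 < n → (e : G × G → A) (σ ^ i, σ) = 1 := by
    intro i hi
    have h1' : cval χ σ = 1 := by simpa using cval_pow_lt χ hσ (i := 1) (by omega)
    rw [heval, delta1_apply, show b σ = 1 by
      simp [b, h1', bs, hd2 σ _ χ.ker.one_mem], smul_one]
    simp only [b, bs, cval_pow_lt χ hσ (show i < n by omega), cval_mul, h1',
      Nat.mod_eq_of_lt hi, Finset.prod_range_succ, mul_inv_rev]
    simp
  let a : A := (e : G × G → A) (σ ^ (n - 1), σ)
  have hgσ : ∀ g, (e : G × G → A) (g, σ) = a ^ carry χ g σ := by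
    intro g
    rcases Nat.lt_or_ge 1 n with hn | hn
    swap
    · have hall : ∀ g : G, g ∈ χ.ker := fun g =>
        (cval_eq_zero_iff χ g).1 (by have := cval_lt χ g; omega)
      rw [carry_mem_ker_right χ g (hall σ), pow_zero, he1 _ _ (hall σ)]
    obtain ⟨k, hk, he⟩ := exists_eq_pow_mul hσ g
    have h1' : cval χ σ = 1 := by simpa using cval_pow_lt χ hσ hn
    have hlt := cval_lt χ g
    conv_lhs => rw [he, heL _ _ _ hk]
    rw [carry, h1']
    by_cases h : cval χ g + 1 < n
    · rw [hsmall _ h, Nat.div_eq_of_lt h, pow_zero]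
    · rw [show cval χ g + 1 = n by omega, Nat.div_self (NeZero.pos n), pow_one,
        show cval χ g = n - 1 by omega]
  have hm : ∀ m, m < n → ∀ g, (e : G × G → A) (g, σ ^ m) = a ^ carry χ g (σ ^ m) := by
    intro m
    induction m with
    | zero => intro _ g; simp [he1 g 1 χ.ker.one_mem, carry_mem_ker_right χ g χ.ker.one_mem]
    | succ m ih =>
      intro hm g
      have h := e.2 g (σ ^ m) σ
      rw [hsmall m hm, smul_one, one_mul, ← pow_succ, hgσ, ih (by omega), ← pow_add,
        carry_assoc, pow_succ,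
        show carry χ (σ ^ m) σ = 0 by
          rw [carry, cval_pow_lt χ hσ (show m < n by omega),
            show cval χ σ = 1 by simpa using cval_pow_lt χ hσ (i := 1) (by omega)]
          exact Nat.div_eq_of_lt hm, zero_add, ← pow_succ] at h
      exact h.symm
  have hσa : σ • a = a := by
    rcases Nat.lt_or_ge 1 n with hn | hn
    swap
    · exact heF _ _ σ ((cval_eq_zero_iff χ σ).1 (by have := cval_lt χ σ; omega))
    have h := e.2 σ (σ ^ (n - 1)) σ
    rw [← pow_succ', ← pow_succ, show n - 1 + 1 = n by omega, hm _ (by omega),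
      he2 _ _ (pow_card_mem_ker hσ), he1 _ _ (pow_card_mem_ker hσ), one_mul, mul_one,
      show carry χ σ (σ ^ (n - 1)) = 1 by
        rw [carry, cval_pow_lt χ hσ (show n - 1 < n by omega),
          show cval χ σ = 1 by simpa using cval_pow_lt χ hσ hn,
          show 1 + (n - 1) = n by omega, Nat.div_self (NeZero.pos n)], pow_one] at h
    exact h.symm
  have hafix : a ∈ fixedSubgroup G A := by
    intro g
    obtain ⟨k, hk, he⟩ := exists_eq_pow_mul hσ g
    rw [he, mul_smul, heF _ _ k hk]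
    induction cval χ g with
    | zero => rw [pow_zero, one_smul]
    | succ i ih => rw [pow_succ, mul_smul, hσa, ih]
  refine ⟨⟨a, hafix⟩, (cls_eq_cls_iff _ _).2 ⟨b⁻¹, ?_⟩⟩
  funext p
  obtain ⟨g, h⟩ := p
  obtain ⟨k, hk, he⟩ := exists_eq_pow_mul hσ h
  have : (e : G × G → A) (g, h) = a ^ carry χ g h := by
    conv_lhs => rw [he, heR _ _ _ hk, hm _ (cval_lt χ h)]
    rw [carry, carry, cval_pow_lt χ hσ (cval_lt χ h)]
  rw [heval] at this
  simp [← this, map_inv, div_eq_mul_inv]

end Norm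

end Fermat.Agent.CFT.Class
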