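/-
Dévissage: prime-step norm index bounds and vanishing of `H¹` give `H¹ = 0` and `|H²| ∣ |G|`
for `p`-groups, and the `p`-parts for arbitrary finite groups.
-/
import Fermat.Agent.CFT.Class.Carry
import Mathlib.GroupTheory.Sylow
import Mathlib.GroupTheory.IndexNormal
import Mathlib.GroupTheory.SpecificGroups.Cyclic

set_option autoImplicit false

namespace Fermat.Agent.CFT.Class

open groupCohomology

variable {G A : Type*} [Group G] [CommGroup A] [MulDistribMulAction G A]
variable {n : ℕ} [NeZero n]

/-- Invariants of the kernel. -/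
lemma fixedSubgroup_ker_smul (χ : G →* Multiplicative (ZMod n)) {σ : G}
    (hσ : χ σ = Multiplicative.ofAdd 1) {y : A} (hy : ∀ k ∈ χ.ker, k • y = y) :
    normPow σ n y ∈ fixedSubgroup G A := fun g => smul_normPow hσ hy g

/-- The norm subgroup of a cyclic step. -/
def normSubgroup (χ : G →* Multiplicative (ZMod n)) (σ : G) : Subgroup (fixedSubgroup G A) where
  carrier := {a | ∃ y : A, (∀ k ∈ χ.ker, k • y = y) ∧ normPow σ n y = a}
  one_mem' := ⟨1, fun k _ => smul_one k, by simp [normPow]⟩
  mul_mem' {a b} := by
    rintro ⟨y, hy, hya⟩ ⟨z, hz, hzb⟩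
    refine ⟨y * z, fun k hk => by rw [smul_mul', hy k hk, hz k hk], ?_⟩
    simp only [normPow] at hya hzb ⊢
    simp [smul_mul', Finset.prod_mul_distrib, hya, hzb]
  inv_mem' {a} := by
    rintro ⟨y, hy, hya⟩
    refine ⟨y⁻¹, fun k hk => by rw [smul_inv', hy k hk], ?_⟩
    simp only [normPow] at hya ⊢
    simp [smul_inv', hya]

lemma normSubgroup_le_ker (χ : G →* Multiplicative (ZMod n)) {σ : G}
    (hσ : χ σ = Multiplicative.ofAdd 1) : normSubgroup χ σ ≤ (carryH2 (A := A) χ).ker := by
  rintro a ⟨y, hy, hya⟩
  exact carryH2_eq_one_of_norm hσ a hy hya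

section Transport

variable {H H' : Type*} [Group H] [Group H'] [MulDistribMulAction H A] [MulDistribMulAction H' A]
variable (e : H ≃* H') (he : ∀ (h : H) (a : A), e h • a = h • a)

include he in
lemma symm_smul_of (h : H') (a : A) : e.symm h • a = h • a := by
  rw [← he, MulEquiv.apply_symm_apply]

include he in
lemma h1Triv_congr (h : H1Triv H A) : H1Triv H' A := by
  intro b hb
  obtain ⟨a, ha⟩ := h (fun x => b (e x)) (fun x y => by simp only [map_mul, hb (e x) (e y), he])
  exact ⟨a, fun x => by
    have := ha (e.symm x)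
    simp only [symm_smul_of e he, MulEquiv.apply_symm_apply] at this
    exact this⟩

/-- Transport of `H²` along an isomorphism of groups. -/
def congrH2 : H2M H A ≃* H2M H' A where
  toFun := mapH2 e.symm.toMonoidHom (MonoidHom.id A) (fun h a => symm_smul_of e he h a)
  invFun := mapH2 e.toMonoidHom (MonoidHom.id A) (fun h a => he h a)
  left_inv x := by
    induction x using QuotientGroup.induction_on with | H c => ?_
    refine congrArg cls (Subtype.ext (funext fun p => ?_))
    obtain ⟨g, g'⟩ := p
    simp
  right_inv x := by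
    induction x using QuotientGroup.induction_on with | H c => ?_
    refine congrArg cls (Subtype.ext (funext fun p => ?_))
    obtain ⟨g, g'⟩ := p
    simp
  map_mul' := map_mul _

end Transport

/-- The axioms of a class formation for the cyclic steps of prime order `p` below `G`. -/
structure PrimeSteps (p : ℕ) [NeZero p] (G A : Type*) [Group G] [CommGroup A]
    [MulDistribMulAction G A] : Prop where
  h1 : ∀ (U : Subgroup G) (χ : U →* Multiplicative (ZMod p)) (σ : U),
    χ σ = Multiplicative.ofAdd 1 → ∀ y : A, (∀ k ∈ χ.ker, k • y = y) → normPow σ p y = 1 →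
      ∃ z : A, (∀ k ∈ χ.ker, k • z = z) ∧ σ • z / z = y
  index : ∀ (U : Subgroup G) (χ : U →* Multiplicative (ZMod p)) (σ : U),
    χ σ = Multiplicative.ofAdd 1 → (normSubgroup (A := A) χ σ).index ∣ p

variable {p : ℕ} [hp : Fact p.Prime]

lemma exists_surjective_character {U : Type*} [Group U] [Finite U] (hU : IsPGroup p U)
    [Nontrivial U] :
    ∃ (χ : U →* Multiplicative (ZMod p)) (σ : U), χ σ = Multiplicative.ofAdd 1 := by
  obtain ⟨n, hn, hcard⟩ := hU.nontrivial_iff_card.1 inferInstance
  obtain ⟨K, hK⟩ := Sylow.exists_subgroup_card_pow_prime p (n := n - 1) (G := U)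
    (by rw [hcard]; exact pow_dvd_pow p (Nat.sub_le n 1))
  have hidx : K.index = p := by
    have := K.card_mul_index
    rw [hcard, hK] at this
    conv_rhs at this => rw [show n = n - 1 + 1 by omega, pow_succ]
    exact Nat.eq_of_mul_eq_mul_left (pow_pos hp.out.pos _) this
  have : K.Normal := Subgroup.normal_of_index_eq_minFac_card (by
    rw [hidx, hcard, hp.out.pow_minFac (by omega)])
  have hq : Nat.card (U ⧸ K) = p := hidx
  have : IsCyclic (U ⧸ K) := isCyclic_of_prime_card hq
  let e : U ⧸ K ≃* Multiplicative (ZMod p) := (hq ▸ zmodCyclicMulEquiv this).symm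
  obtain ⟨σ, hσ⟩ := QuotientGroup.mk_surjective (e.symm (Multiplicative.ofAdd 1))
  exact ⟨e.toMonoidHom.comp (QuotientGroup.mk' K), σ, by simp [hσ]⟩

variable [Finite G]

/-- Dévissage along prime steps in a `p`-subgroup. -/
theorem PrimeSteps.bounds (hs : PrimeSteps p G A) (U : Subgroup G) (hU : IsPGroup p U) :
    H1Triv U A ∧ Nat.card (H2M U A) ∣ Nat.card U := by
  induction hN : Nat.card U using Nat.strong_induction_on generalizing U with
  | _ N ih => ?_
  subst hN
  rcases subsingleton_or_nontrivial U with hS | hN'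
  · refine ⟨fun b hb => ⟨1, fun g => ?_⟩, ?_⟩
    · rw [Subsingleton.elim g 1, map_one_of_isMulCocycle₁ hb, smul_one, div_self']
    · have : Subsingleton (H2M U A) := by
        refine ⟨fun x y => ?_⟩
        have : ∀ z : H2M U A, z = 1 := fun z => by
          induction z using QuotientGroup.induction_on with | H c => ?_
          refine (cls_eq_one_iff c).2 ⟨fun _ => (c : U × U → A) (1, 1), ?_⟩
          ext ⟨g, h⟩
          simp [Subsingleton.elim g 1, Subsingleton.elim h 1]
        rw [this x, this y]
      rw [Nat.card_unique]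
      exact one_dvd _
  obtain ⟨χ, σ, hσ⟩ := exists_surjective_character hU
  set K : Subgroup U := χ.ker with hKdef
  have hsurj : Function.Surjective χ := fun x => ⟨σ ^ x.toAdd.val, by
    rw [map_pow, hσ, ← ofAdd_nsmul, nsmul_one, ZMod.natCast_zmod_val]; rfl⟩
  have hKidx : K.index = p := by
    rw [hKdef, Subgroup.index_ker, MonoidHom.range_eq_top.2 hsurj, Subgroup.card_top]
    simp
  have hKcard : Nat.card K * p = Nat.card U := by rw [← hKidx, K.card_mul_index]
  have hlt : Nat.card (K.map U.subtype) < Nat.card U := by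
    rw [Subgroup.card_map_of_injective U.subtype_injective, ← hKcard]
    exact lt_mul_of_one_lt_right Nat.card_pos hp.out.one_lt
  obtain ⟨ihH1, ihH2⟩ := ih _ hlt (K.map U.subtype) (hU.to_subgroup K |>.map U.subtype) rfl
  let e : K.map U.subtype ≃* K :=
    (Subgroup.equivMapOfInjective K U.subtype U.subtype_injective).symm
  have he : ∀ (h : K.map U.subtype) (a : A), e h • a = h • a := fun h a => by
    have : ((e h : U) : G) = (h : G) := by
      have := Subgroup.coe_equivMapOfInjective_apply K U.subtype U.subtype_injective (e h)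
      rw [MulEquiv.apply_symm_apply] at this
      exact this.symm
    change ((e h : U) : G) • a = (h : G) • a
    rw [this]
  have hK1 : H1Triv K A := h1Triv_congr e he ihH1
  have hK2 : Nat.card (H2M K A) ∣ Nat.card K := by
    rw [← Nat.card_congr (congrH2 e he).toEquiv,
      ← Nat.card_congr e.toEquiv]
    exact ihH2
  refine ⟨fun b hb => ?_, ?_⟩
  · obtain ⟨x, hx⟩ := hK1 (fun k => b k) (fun k k' => hb _ _)
    let b' : U → A := fun g => b g / (g • x / x)
    have hb' : IsMulCocycle₁ b' := fun g h => by
      simp only [b', hb g h, mul_smul, smul_div']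
      apply Additive.ofMul.injective
      simp only [ofMul_mul, ofMul_div]
      abel
    have hk : ∀ k ∈ K, b' k = 1 := fun k hk => by
      simp only [b', div_eq_one]; exact (hx ⟨k, hk⟩).symm
    have hfix : ∀ g, ∀ k ∈ K, k • b' g = b' g := fun g k hk' => by
      obtain ⟨k', hk'', he⟩ := exists_mul_eq_mul g hk'
      have h1 := hb' k g
      rw [he, hb' g k', hk k hk', hk k' hk'', smul_one, one_mul, mul_one] at h1
      exact h1.symm
    have hpow : ∀ i : ℕ, b' (σ ^ i) = ∏ j ∈ Finset.range i, σ ^ j • b' σ := by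
      intro i
      induction i with
      | zero => simp [map_one_of_isMulCocycle₁ hb']
      | succ i ihi => rw [pow_succ, hb', ihi, Finset.prod_range_succ, mul_comm]
    have hN : normPow σ p (b' σ) = 1 := by
      rw [normPow, ← hpow]; exact hk _ (pow_card_mem_ker hσ)
    obtain ⟨z, hz, hzσ⟩ := hs.h1 U χ σ hσ (b' σ) (hfix σ) hN
    refine ⟨z * x, fun g => ?_⟩
    obtain ⟨k, hkK, heg⟩ := exists_eq_pow_mul hσ g
    have hσi : ∀ i : ℕ, σ ^ i • z / z = b' (σ ^ i) := by
      intro i
      induction i with
      | zero => simp [map_one_of_isMulCocycle₁ hb']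
      | succ i ihi =>
        rw [pow_succ, hb', ← ihi, ← hzσ, mul_smul, smul_div', div_mul_div_cancel]
    have : g • z / z = b' g := by
      rw [heg, mul_smul, hz k hkK, hσi, hb', hk k hkK, smul_one, one_mul]
    rw [smul_mul', mul_div_mul_comm, this]
    simp [b']
  · have : Finite (H2M K A) := Nat.finite_of_card_ne_zero fun h => by
      rw [h] at hK2; exact (Nat.card_pos (α := K)).ne' (Nat.eq_zero_of_zero_dvd hK2)
    have hker : (resH2 (A := A) K).ker ≤ (carryH2 (A := A) χ).range := by
      intro x hx
      obtain ⟨a, ha⟩ := exists_carryH2_eq hσ hK1.kill x hx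
      exact ⟨a, by rw [ha, pow_one]⟩
    have hr : Nat.card (carryH2 (A := A) χ).range ∣ p := by
      rw [← Subgroup.index_ker]
      exact (Subgroup.index_dvd_of_le (normSubgroup_le_ker χ hσ)).trans (hs.index U χ σ hσ)
    calc Nat.card (H2M U A) = Nat.card (resH2 (A := A) K).ker * (resH2 (A := A) K).ker.index :=
          ((resH2 (A := A) K).ker.card_mul_index).symm
      _ ∣ p * Nat.card K := by
          refine mul_dvd_mul ((Subgroup.card_dvd_of_le hker).trans hr) ?_
          rw [Subgroup.index_ker]
          exact (Subgroup.card_subgroup_dvd_card _).trans hK2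
      _ = Nat.card U := by rw [mul_comm, hKcard]

/-- The prime-to-`p` part of the order. -/
noncomputable abbrev coIndex (p : ℕ) (G : Type*) : ℕ := Nat.card G / p ^ (Nat.card G).factorization p

lemma sylow_index (P : Sylow p G) : (P : Subgroup G).index = coIndex p G := by
  have h := (P : Subgroup G).card_mul_index
  rw [P.card_eq_multiplicity] at h
  exact (Nat.div_eq_of_eq_mul_right (pow_pos hp.out.pos _) h.symm).symm

lemma coprime_coIndex : p.Coprime (coIndex p G) :=
  Nat.coprime_ordCompl hp.out Nat.card_pos.ne'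

/-- The prime-to-`p` part of the order kills `H¹`. -/
theorem PrimeSteps.h1Kill (hs : PrimeSteps p G A) : H1Kill G A (coIndex p G) := by
  intro b hb
  obtain ⟨P⟩ := (inferInstance : Nonempty (Sylow p G))
  obtain ⟨x, hx⟩ := (hs.bounds P P.2).1 (fun k => b k) (fun k k' => hb _ _)
  let b' : G → A := fun g => b g / (g • x / x)
  have hb' : IsMulCocycle₁ b' := fun g h => by
    simp only [b', hb g h, mul_smul, smul_div']
    apply Additive.ofMul.injective
    simp only [ofMul_mul, ofMul_div]
    abel
  have hk : ∀ g, ∀ k ∈ (P : Subgroup G), b' (g * k) = b' g := fun g k hk => by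
    rw [hb', show b' k = 1 by simp only [b', div_eq_one]; exact (hx ⟨k, hk⟩).symm, smul_one,
      one_mul]
  let _i : Fintype (G ⧸ (P : Subgroup G)) := Fintype.ofFinite _
  let D : G ⧸ (P : Subgroup G) → A := Quotient.lift b' fun a c hac => by
    simpa using (hk a _ (QuotientGroup.leftRel_apply.1 hac)).symm
  refine ⟨x ^ coIndex p G / ∏ q, D q, fun g => ?_⟩
  have hid : ∀ q, D (g • q) = g • D q * b' g := by
    intro q
    induction q using QuotientGroup.induction_on with | H j => ?_
    exact hb' g j
  have := Finset.prod_congr (s₁ := (Finset.univ : Finset (G ⧸ (P : Subgroup G)))) rfl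
    (fun q _ => hid q)
  rw [Fintype.prod_equiv (MulAction.toPerm g) (fun q => D (g • q)) D (fun q => rfl),
    Finset.prod_mul_distrib, Finset.prod_const, ← Finset.smul_prod', Finset.card_univ,
    ← Nat.card_eq_fintype_card, ← Subgroup.index, sylow_index P] at this
  have hbg : b g = b' g * (g • x / x) := by simp [b']
  change g • (x ^ coIndex p G / ∏ q, D q) / (x ^ coIndex p G / ∏ q, D q) = b g ^ coIndex p G
  have hbgm : b g ^ coIndex p G = b' g ^ coIndex p G * ((g • x) ^ coIndex p G / x ^ coIndex p G) := by
    rw [← div_pow, ← mul_pow, ← hbg]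
  rw [smul_div', smul_pow']
  apply Additive.ofMul.injective
  have h3 := congrArg Additive.ofMul this
  have h4 := congrArg Additive.ofMul hbgm
  simp only [ofMul_mul, ofMul_div] at h3 h4 ⊢
  linear_combination (norm := abel) h3 - h4

/-- Restriction to a Sylow subgroup is injective on classes killed by a power of `p`. -/
theorem eq_one_of_resH2_sylow (P : Sylow p G) (x : H2M G A) {k : ℕ} (hx : x ^ p ^ k = 1)
    (hres : resH2 (P : Subgroup G) x = 1) : x = 1 := by
  have h := pow_index_eq_one (P : Subgroup G) x hres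
  rw [sylow_index P] at h
  have hg : x ^ (p ^ k).gcd (coIndex p G) = 1 := pow_gcd_eq_one.2 ⟨hx, h⟩
  rwa [(Nat.Coprime.pow_left k coprime_coIndex : (p ^ k).Coprime (coIndex p G)), pow_one] at hg

/-- The `p`-primary classes. -/
def pPart (p : ℕ) (M : Type*) [CommGroup M] : Subgroup M where
  carrier := {x | ∃ k : ℕ, x ^ p ^ k = 1}
  one_mem' := ⟨0, one_pow _⟩
  mul_mem' {a b} := by
    rintro ⟨k, hk⟩ ⟨l, hl⟩
    refine ⟨k + l, ?_⟩
    rw [mul_pow, pow_add, pow_mul, hk, one_pow, one_mul, mul_comm, pow_mul, hl, one_pow]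
  inv_mem' {a} := by
    rintro ⟨k, hk⟩
    exact ⟨k, by rw [inv_pow, hk, inv_one]⟩

/-- The `p`-part of `H²` has order dividing the `p`-part of the group order. -/
theorem PrimeSteps.card_pPart_dvd (hs : PrimeSteps p G A) :
    Nat.card (pPart p (H2M G A)) ∣ p ^ (Nat.card G).factorization p := by
  obtain ⟨P⟩ := (inferInstance : Nonempty (Sylow p G))
  rw [← P.card_eq_multiplicity]
  refine dvd_trans ?_ (hs.bounds P P.2).2
  refine Subgroup.card_dvd_of_injective
    ((resH2 (A := A) (P : Subgroup G)).comp (pPart p (H2M G A)).subtype) ?_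
  rw [injective_iff_map_eq_one]
  rintro ⟨x, k, hk⟩ hres
  exact Subtype.ext (eq_one_of_resH2_sylow P x hk hres)

end Fermat.Agent.CFT.Class
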